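/-
P-CFT / [HASSE], row 949 HS-B4 (helper44): `DecClosedStatement → SplitCaseStatement`.

If `M` lies in the local field `K ⊔ decField A` of the number field `K` at the place `A` of `ℚ̄`,
then the prime `v` of `K` under `A` is not nonsplit in `M`.
-/
import Fermat.Agent.H97.Hasse.Interfaces
import Fermat.Agent.H73.KummerRamKD2
import Fermat.Agent.H54.Cft.KummerLevel
import Fermat.Agent.H53.S14T.Profinite

set_option autoImplicit false
set_option linter.style.haveILetI false

open NumberField IsDedekindDomain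

namespace Fermat.Agent.H44.Hasse

open Fermat.Agent.H97.Hasse Fermat.Agent.H78.CFT Fermat.Agent.H54.Cft Fermat.Agent.H73.KD2

/-! ### The restriction of a place to a number field is determined by the prime below -/

/-- Two places of `ℚ̄` over the same prime of the number field `L` have the same restriction
to `L`. -/
theorem mem_iff_of_liesOver (L : IntermediateField ℚ Qb) [NumberField L]
    {A A' : ValuationSubring Qb} {v : HeightOneSpectrum (𝓞 L)}
    (hA : LiesOverHeightOne L A v) (hA' : LiesOverHeightOne L A' v) (y : Qb) (hy : y ∈ L) :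
    y ∈ A ↔ y ∈ A' := by
  by_cases hy0 : y = 0
  · rw [hy0]
    exact ⟨fun _ => A'.zero_mem, fun _ => A.zero_mem⟩
  obtain ⟨π, hπ⟩ := v.intValuation_exists_uniformizer
  have hπmem : π ∈ v.asIdeal := by
    rw [← v.intValuation_lt_one_iff_mem, hπ, ← WithZero.exp_zero, WithZero.exp_lt_exp]
    norm_num
  have hπ0 : (((π : L)) : Qb) ≠ 0 := by
    intro h
    have h1 : (π : L) = 0 := by exact_mod_cast h
    have h2 : π = 0 := by exact_mod_cast h1
    rw [h2, map_zero] at hπ
    exact WithZero.exp_ne_zero.symm hπ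
  have hyL : (⟨y, hy⟩ : L) ≠ 0 := fun h => hy0 (congrArg Subtype.val h)
  set c : Lˣ := Units.mk0 ⟨y, hy⟩ hyL with hc
  have key : ∀ B : ValuationSubring Qb, LiesOverHeightOne L B v →
      (y ∈ B ↔ 0 ≤ - Multiplicative.toAdd (v.valuationOfNeZero c)) := by
    intro B hB
    have h1 : B.valuation (((π : L)) : Qb) < 1 := (B.mem_nonunits_iff).mp (hB π hπmem)
    have h0 : 0 < B.valuation (((π : L)) : Qb) :=
      zero_lt_iff.mpr ((Valuation.ne_zero_iff _).mpr hπ0)
    have h2 := valuation_eq_zpow hB hπ c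
    have h3 : (((c : L)) : Qb) = y := rfl
    rw [h3] at h2
    rw [← B.valuation_le_one_iff, h2]
    exact zpow_le_one_iff_right_of_lt_one₀ h0 h1
  rw [key A hA, key A' hA']

/-- If the place `A` lies over the prime `w` of `M` and over the prime `v` of `K ≤ M`, then `w`
lies over `v`. -/
theorem under_eq_of_liesOver (K : IntermediateField ℚ Qb) [NumberField K]
    (M : IntermediateField K Qb) [NumberField M] [FiniteDimensional K M]
    {A : ValuationSubring Qb} {v : HeightOneSpectrum (𝓞 K)} {w : HeightOneSpectrum (𝓞 M)}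
    (hv : LiesOverHeightOne K A v)
    (hw : ∀ x : 𝓞 M, x ∈ w.asIdeal → (((x : M)) : Qb) ∈ A.nonunits) :
    w.under (𝓞 K) = v := by
  haveI : NumberField ↥(M.restrictScalars ℚ) := (inferInstance : NumberField ↥M)
  have hw' : LiesOverHeightOne (M.restrictScalars ℚ) A w := hw
  apply HeightOneSpectrum.ext
  show w.asIdeal.under (𝓞 K) = v.asIdeal
  symm
  haveI := v.isMaximal
  haveI := w.isPrime
  refine Ideal.IsMaximal.eq_of_le inferInstance (Ideal.IsPrime.under (𝓞 K) w.asIdeal).ne_top ?_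
  intro x hx
  rw [Ideal.under_def, Ideal.mem_comap]
  by_contra hnot
  have h1 : A.valuation ((((algebraMap (𝓞 K) (𝓞 M) x : 𝓞 M) : M)) : Qb) = 1 :=
    valuation_eq_one_of_notMem (L := M.restrictScalars ℚ) hw' hnot
  have h2 : A.valuation (((x : K)) : Qb) < 1 := (A.mem_nonunits_iff).mp (hv x hx)
  have hcoe : ((((algebraMap (𝓞 K) (𝓞 M) x : 𝓞 M) : M)) : Qb) = (((x : K)) : Qb) := rfl
  rw [hcoe] at h1
  rw [h1] at h2
  exact lt_irrefl _ h2

/-! ### Main theorem -/

/-- **[HS-B4] SplitCase.** -/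
theorem splitCase (hDec : DecClosedStatement) : SplitCaseStatement := by
  intro p _ K _ M _ _ _ hdeg q hq A hA v hv hM hns
  haveI : NumberField ↥(M.restrictScalars ℚ) := (inferInstance : NumberField ↥M)
  haveI := isGalois_Qbar_kd2
  have hp2 : 2 ≤ p := (Fact.out : p.Prime).two_le
  -- an element of `M` outside `K`
  have hex : ∃ m : Qb, m ∈ M ∧ m ∉ K := by
    by_contra hno
    have hno' : ∀ m : Qb, m ∈ M → m ∈ K := fun m hm => by
      by_contra hmK
      exact hno ⟨m, hm, hmK⟩
    have hbot : M = ⊥ := by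
      rw [eq_bot_iff]
      intro m hm
      exact ⟨⟨m, hno' m hm⟩, rfl⟩
    rw [hbot, IntermediateField.finrank_bot] at hdeg
    omega
  obtain ⟨m, hmM, hmK⟩ := hex
  -- an element of `G_K` moving it
  have hext : ∃ t : Qb ≃ₐ[ℚ] Qb, t ∈ K.fixingSubgroup ∧ t m ≠ m := by
    by_contra hno
    have hno' : ∀ t : Qb ≃ₐ[ℚ] Qb, t ∈ K.fixingSubgroup → t m = m := fun t ht => by
      by_contra htm
      exact hno ⟨t, ht, htm⟩
    apply hmK
    rw [← InfiniteGalois.fixedField_fixingSubgroup K]
    intro t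
    exact hno' t.1 t.2
  obtain ⟨t, htK, htm⟩ := hext
  have htK' : ∀ x ∈ K, t x = x := fun x hx =>
    (IntermediateField.mem_fixingSubgroup_iff K t).mp htK x hx
  -- the conjugate place
  set A' : ValuationSubring Qb := A.comap (t : Qb →+* Qb) with hA'def
  have hmemA' : ∀ x : Qb, x ∈ A' ↔ t x ∈ A := fun x => ValuationSubring.mem_comap
  have hnuA' : ∀ x : Qb, x ∈ A'.nonunits ↔ t x ∈ A.nonunits := by
    intro x
    rw [ValuationSubring.mem_nonunits_iff_or, ValuationSubring.mem_nonunits_iff_or, hmemA',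
      map_inv₀, map_eq_zero]
  have hA' : A'.LiesOverPrime q := by
    show (q : Qb) ∈ A'.nonunits
    rw [hnuA', map_natCast]
    exact hA
  have hv' : LiesOverHeightOne K A' v := by
    intro x hx
    rw [hnuA', htK' _ (x : K).2]
    exact hv x hx
  -- the primes of `M` under `A` and `A'`
  have hexw : ∀ B : ValuationSubring Qb, B.LiesOverPrime q →
      ∃ w : HeightOneSpectrum (𝓞 M),
        ∀ x : 𝓞 M, x ∈ w.asIdeal → (((x : M)) : Qb) ∈ B.nonunits := by
    intro B hB
    obtain ⟨w, hw, -⟩ := exists_heightOne_under (M.restrictScalars ℚ) B hq hB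
    exact ⟨w, hw⟩
  obtain ⟨w, hw⟩ := hexw A hA
  obtain ⟨w', hw'⟩ := hexw A' hA'
  have hwv : w.under (𝓞 K) = v := under_eq_of_liesOver K M hv hw
  have hwv' : w'.under (𝓞 K) = v := under_eq_of_liesOver K M hv' hw'
  have hww : w = w' := hns w w' hwv hwv'
  rw [← hww] at hw'
  -- `A` and `A'` have the same restriction to `M`
  have hwL : LiesOverHeightOne (M.restrictScalars ℚ) A w := hw
  have hwL' : LiesOverHeightOne (M.restrictScalars ℚ) A' w := hw'
  have hres : ∀ y ∈ M.restrictScalars ℚ, y ∈ A' ↔ y ∈ A := fun y hy =>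
    (mem_iff_of_liesOver (M.restrictScalars ℚ) hwL hwL' y hy).symm
  obtain ⟨ρ, hρ1, hρ2⟩ :=
    Fermat.Agent.H53.transitiveStatement (M.restrictScalars ℚ) A A' q hq hA hres
  -- `g = ρ t⁻¹` lies in the decomposition group
  have hg : ρ * t⁻¹ ∈ A.decompositionSubgroup ℚ := by
    refine Fermat.Agent.H53.mem_decompositionSubgroup_of A (ρ * t⁻¹) (fun x hx => ?_)
      (fun x hx => ?_)
    · show ρ (t⁻¹ x) ∈ A
      rw [← hρ2, hmemA']
      have : t (t⁻¹ x) = x := AlgEquiv.apply_symm_apply t x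
      rw [this]
      exact hx
    · have e : (ρ * t⁻¹)⁻¹ = t * ρ⁻¹ := by rw [mul_inv_rev, inv_inv]
      rw [e]
      show t (ρ⁻¹ x) ∈ A
      rw [← hmemA', hρ2]
      have : ρ (ρ⁻¹ x) = x := AlgEquiv.apply_symm_apply ρ x
      rw [this]
      exact hx
  rw [← hDec q hq A hA] at hg
  have hgdec : ∀ x ∈ decField A, (ρ * t⁻¹) x = x := fun x hx =>
    (IntermediateField.mem_fixingSubgroup_iff _ _).mp hg x hx
  have htinv : ∀ x ∈ K, t⁻¹ x = x := fun x hx => by
    have h1 := htK' x hx
    have h2 : t⁻¹ (t x) = x := AlgEquiv.symm_apply_apply t x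
    rw [h1] at h2
    exact h2
  have hgK : ∀ x ∈ K, (ρ * t⁻¹) x = x := fun x hx => by
    show ρ (t⁻¹ x) = x
    rw [htinv x hx]
    exact hρ1 x (le_restrictScalars M hx)
  have hgloc : ρ * t⁻¹ ∈ (locFieldAt K A).fixingSubgroup := by
    unfold locFieldAt
    rw [IntermediateField.fixingSubgroup_sup]
    exact ⟨(IntermediateField.mem_fixingSubgroup_iff _ _).mpr hgK, hg⟩
  have hgm : (ρ * t⁻¹) m = m :=
    (IntermediateField.mem_fixingSubgroup_iff _ _).mp hgloc m (hM hmM)
  -- contradiction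
  apply htm
  have hρm : ρ m = m := hρ1 m hmM
  have h1 : ρ (t⁻¹ m) = m := hgm
  have h2 : ρ (t⁻¹ m) = ρ m := by rw [h1, hρm]
  have h3 : t⁻¹ m = m := ρ.injective h2
  have h4 : t (t⁻¹ m) = m := AlgEquiv.apply_symm_apply t m
  rw [h3] at h4
  exact h4

end Fermat.Agent.H44.Hasse
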